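import Fermat.Agent.S05.H60.AddSub
import Mathlib.RingTheory.Valuation.ValuationSubring

/-!
# Torsion integrality (S05, module M3)

Let `A` be a valuation subring of a field `F` and `W` a Weierstrass curve over `F` with
coefficients in `A`.  The set `E₁ = {O} ∪ {P | x(P) ∉ A}` (the kernel of reduction) is a subgroup,
and it contains no point of odd prime order `p` when `p` is a unit of `A`.  Consequently a point
of odd prime order `p` (a unit in `A`) has `x(P) ∈ A`.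
-/

set_option autoImplicit false

namespace Fermat.Agent.S05.H60

open WeierstrassCurve WeierstrassCurve.Affine

variable {F : Type*} [Field F] {A : ValuationSubring F} {W : Affine F}

/-! ### Elementary facts on nonunits of a valuation subring -/

lemma nu_mul_left {a m : F} (ha : a ∈ A) (hm : m ∈ A.nonunits) : a * m ∈ A.nonunits := by
  rw [A.mem_nonunits_iff] at *
  rw [map_mul]
  exact mul_lt_one_of_nonneg_of_lt_one_right ((A.valuation_le_one_iff a).mpr ha) zero_le hm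

lemma nu_mul_right {a m : F} (hm : m ∈ A.nonunits) (ha : a ∈ A) : m * a ∈ A.nonunits := by
  rw [mul_comm]; exact nu_mul_left ha hm

lemma nu_mem {m : F} (hm : m ∈ A.nonunits) : m ∈ A := A.nonunits_subset hm

lemma nu_pow {m : F} (hm : m ∈ A.nonunits) (n : ℕ) : m ^ (n + 1) ∈ A.nonunits := by
  rw [pow_succ]; exact nu_mul_left (pow_mem (nu_mem hm) n) hm

lemma nu_sq {m : F} (hm : m ∈ A.nonunits) : m ^ 2 ∈ A.nonunits := nu_pow hm 1

lemma nu_cube {m : F} (hm : m ∈ A.nonunits) : m ^ 3 ∈ A.nonunits := nu_pow hm 2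

lemma nu_four {m : F} (hm : m ∈ A.nonunits) : m ^ 4 ∈ A.nonunits := nu_pow hm 3

lemma nu_inv_of_not_mem {x : F} (hx : x ∉ A) : x⁻¹ ∈ A.nonunits :=
  A.inv_mem_nonunits_iff.mpr (Or.inr hx)

lemma ne_zero_of_not_mem {x : F} (hx : x ∉ A) : x ≠ 0 := fun h => hx (h ▸ A.zero_mem)

lemma not_mem_of_inv_nu {x : F} (hx0 : x ≠ 0) (hx : x⁻¹ ∈ A.nonunits) : x ∉ A := by
  rcases A.inv_mem_nonunits_iff.mp hx with h | h
  · exact absurd h hx0
  · exact h

lemma one_not_nu : (1 : F) ∉ A.nonunits := by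
  rw [A.mem_nonunits_iff, map_one]; exact lt_irrefl _

lemma one_sub_ne_zero {e : F} (he : e ∈ A.nonunits) : 1 - e ≠ 0 := by
  intro h
  have : e = 1 := by linear_combination -h
  exact one_not_nu (this ▸ he)

lemma inv_one_sub_mem {e : F} (he : e ∈ A.nonunits) : (1 - e)⁻¹ ∈ A := by
  have h1 : A.valuation (1 - e) = 1 :=
    A.valuation.map_one_sub_of_lt (A.mem_nonunits_iff.mp he)
  exact (A.valuation_le_one_iff _).mp (by rw [map_inv₀, h1, inv_one])

/-! ### Integral Weierstrass coefficients -/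

/-- The Weierstrass coefficients lie in the valuation subring `A`. -/
structure IntegralCoeffs (A : ValuationSubring F) (W : Affine F) : Prop where
  a₁ : W.a₁ ∈ A
  a₂ : W.a₂ ∈ A
  a₃ : W.a₃ ∈ A
  a₄ : W.a₄ ∈ A
  a₆ : W.a₆ ∈ A

lemma IntegralCoeffs.b₂ (h : IntegralCoeffs A W) : W.b₂ ∈ A := by
  have h1 := h.a₁; have h2 := h.a₂
  unfold WeierstrassCurve.b₂; aesop

lemma IntegralCoeffs.b₄ (h : IntegralCoeffs A W) : W.b₄ ∈ A := by
  have h1 := h.a₁; have h3 := h.a₃; have h4 := h.a₄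
  unfold WeierstrassCurve.b₄; aesop

lemma IntegralCoeffs.b₆ (h : IntegralCoeffs A W) : W.b₆ ∈ A := by
  have h3 := h.a₃; have h6 := h.a₆
  unfold WeierstrassCurve.b₆; aesop

lemma IntegralCoeffs.b₈ (h : IntegralCoeffs A W) : W.b₈ ∈ A := by
  have h1 := h.a₁; have h2 := h.a₂; have h3 := h.a₃; have h4 := h.a₄; have h6 := h.a₆
  unfold WeierstrassCurve.b₈; aesop

variable [DecidableEq F]

/-! ### Duplication in the kernel of reduction -/

/-- If `x(P) ∉ A` and `2P ≠ O` then `x(2P) ∉ A` and `x(P)/x(2P) ≡ 4` modulo the maximal ideal. -/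
theorem dup_not_mem (hW : IntegralCoeffs A W) {P : W.Point} (hP : P ≠ 0) (ha : xc P ∉ A)
    (h2 : P + P ≠ 0) :
    xc (P + P) ∉ A ∧ xc P / xc (P + P) - 4 ∈ A.nonunits := by
  have hdup := xc_add_self hP h2
  generalize xc (P + P) = x₂ at hdup ⊢
  generalize xc P = a at hdup ha
  have hb2 := hW.b₂; have hb4 := hW.b₄; have hb6 := hW.b₆; have hb8 := hW.b₈
  have ha0 : a ≠ 0 := ne_zero_of_not_mem ha
  obtain ⟨u, hau, hu⟩ : ∃ u, a * u = 1 ∧ u ∈ A.nonunits :=
    ⟨a⁻¹, mul_inv_cancel₀ ha0, nu_inv_of_not_mem ha⟩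
  have huA := nu_mem hu
  have hε : W.b₄ * u ^ 2 + 2 * W.b₆ * u ^ 3 + W.b₈ * u ^ 4 ∈ A.nonunits := by
    aesop (add safe apply nu_mul_left, safe apply nu_sq, safe apply nu_cube,
      safe apply nu_four)
  have hτA : 4 + W.b₂ * u + 2 * W.b₄ * u ^ 2 + W.b₆ * u ^ 3 ∈ A := by aesop
  have hδ : W.b₂ * u + 2 * W.b₄ * u ^ 2 + W.b₆ * u ^ 3 +
      4 * (W.b₄ * u ^ 2 + 2 * W.b₆ * u ^ 3 + W.b₈ * u ^ 4) ∈ A.nonunits := by
    aesop (add safe apply nu_mul_left, safe apply nu_sq, safe apply nu_cube,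
      safe apply nu_four)
  have h1 := one_sub_ne_zero hε
  have h1A := inv_one_sub_mem hε
  -- the key relation `x₂ τ = a (1 - ε)`
  have key : x₂ * (4 + W.b₂ * u + 2 * W.b₄ * u ^ 2 + W.b₆ * u ^ 3) =
      a * (1 - (W.b₄ * u ^ 2 + 2 * W.b₆ * u ^ 3 + W.b₈ * u ^ 4)) := by
    simp only [twoTorsionPoly, dupNum] at hdup
    linear_combination (u ^ 3) * hdup +
      (x₂ * (-4 * (1 + a * u + a ^ 2 * u ^ 2) - W.b₂ * u * (1 + a * u) - 2 * W.b₄ * u ^ 2) +
        a * (1 + a * u + a ^ 2 * u ^ 2) - W.b₄ * u ^ 2 * a + W.b₈ * u ^ 3) * hau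
  generalize W.b₄ * u ^ 2 + 2 * W.b₆ * u ^ 3 + W.b₈ * u ^ 4 = ε at hε hδ h1 h1A key
  have hx₂ : x₂ ∉ A := by
    intro hx
    apply ha
    have : a = x₂ * (4 + W.b₂ * u + 2 * W.b₄ * u ^ 2 + W.b₆ * u ^ 3) * (1 - ε)⁻¹ := by
      rw [key]; field_simp
    rw [this]
    exact A.mul_mem _ _ (A.mul_mem _ _ hx hτA) h1A
  refine ⟨hx₂, ?_⟩
  have hx₂0 : x₂ ≠ 0 := ne_zero_of_not_mem hx₂
  have : a / x₂ - 4 = (W.b₂ * u + 2 * W.b₄ * u ^ 2 + W.b₆ * u ^ 3 + 4 * ε) * (1 - ε)⁻¹ := by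
    field_simp
    linear_combination (-1 : F) * key
  rw [this]
  exact nu_mul_right hδ h1A


/-! ### Addition and subtraction in the kernel of reduction -/

omit [DecidableEq F] in
private lemma key_prod {a b d c b4 b6 b8 u w : F}
    (h : d * c * (a - b) ^ 2 = (a * b) ^ 2 - b4 * (a * b) - b6 * (a + b) - b8)
    (hu : a * u = 1) (hw : b * w = 1) :
    d * c * (u - w) ^ 2 = 1 - (b4 * u * w + b6 * (u + w) * u * w + b8 * u ^ 2 * w ^ 2) := by
  have ha : a ≠ 0 := left_ne_zero_of_mul_eq_one hu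
  have hb : b ≠ 0 := left_ne_zero_of_mul_eq_one hw
  obtain rfl : u = a⁻¹ := eq_inv_of_mul_eq_one_right hu
  obtain rfl : w = b⁻¹ := eq_inv_of_mul_eq_one_right hw
  field_simp
  linear_combination h

omit [DecidableEq F] in
private lemma key_sum {a b d c b2 b4 b6 u w : F}
    (h : (d + c) * (a - b) ^ 2 = 2 * (a + b) * (a * b) + b2 * (a * b) + b4 * (a + b) + b6)
    (hu : a * u = 1) (hw : b * w = 1) :
    (d + c) * (u - w) ^ 2 =
      2 * (u + w) + b2 * u * w + b4 * (u + w) * u * w + b6 * u ^ 2 * w ^ 2 := by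
  have ha : a ≠ 0 := left_ne_zero_of_mul_eq_one hu
  have hb : b ≠ 0 := left_ne_zero_of_mul_eq_one hw
  obtain rfl : u = a⁻¹ := eq_inv_of_mul_eq_one_right hu
  obtain rfl : w = b⁻¹ := eq_inv_of_mul_eq_one_right hw
  field_simp
  linear_combination h

/-- If `x(P), x(Q) ∉ A` are distinct then `x(P ± Q) ∉ A`, and if moreover
`r = x(P)/x(Q) ∈ A` then `x(P)/x(P+Q) + x(P)/x(P-Q) ≡ 2r + 2` modulo the maximal ideal. -/
theorem addsub_not_mem (hW : IntegralCoeffs A W) {P Q : W.Point} (hP : P ≠ 0) (hQ : Q ≠ 0)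
    (ha : xc P ∉ A) (hb : xc Q ∉ A) (hab : xc P ≠ xc Q) :
    xc (P + Q) ∉ A ∧ xc (P - Q) ∉ A ∧
      (xc P / xc Q ∈ A →
        xc P / xc (P + Q) + xc P / xc (P - Q) - 2 * (xc P / xc Q) - 2 ∈ A.nonunits) := by
  have hprod := xc_add_mul_xc_sub hP hQ hab
  have hsum := xc_add_add_xc_sub hP hQ hab
  generalize xc (P + Q) = d at hprod hsum ⊢
  generalize xc (P - Q) = c at hprod hsum ⊢
  generalize xc P = a at hprod hsum ha hab ⊢
  generalize xc Q = b at hprod hsum hb hab ⊢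
  have hb2 := hW.b₂; have hb4 := hW.b₄; have hb6 := hW.b₆; have hb8 := hW.b₈
  have ha0 : a ≠ 0 := ne_zero_of_not_mem ha
  have hb0 : b ≠ 0 := ne_zero_of_not_mem hb
  obtain ⟨u, hau, hu⟩ : ∃ u, a * u = 1 ∧ u ∈ A.nonunits :=
    ⟨a⁻¹, mul_inv_cancel₀ ha0, nu_inv_of_not_mem ha⟩
  obtain ⟨w, hbw, hw⟩ : ∃ w, b * w = 1 ∧ w ∈ A.nonunits :=
    ⟨b⁻¹, mul_inv_cancel₀ hb0, nu_inv_of_not_mem hb⟩
  have huA := nu_mem hu
  have hwA := nu_mem hw
  have key1 := key_prod hprod hau hbw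
  have key2 := key_sum hsum hau hbw
  have hε : W.b₄ * u * w + W.b₆ * (u + w) * u * w + W.b₈ * u ^ 2 * w ^ 2 ∈ A.nonunits := by
    aesop (add safe apply nu_mul_left, safe apply nu_sq, safe apply nu_cube,
      safe apply nu_four)
  have hσ₀ : 2 * (u + w) + W.b₂ * u * w + W.b₄ * (u + w) * u * w + W.b₆ * u ^ 2 * w ^ 2 ∈
      A.nonunits := by
    aesop (add safe apply nu_mul_left, safe apply nu_sq, safe apply nu_cube,
      safe apply nu_four)
  have hπ₀ : (u - w) ^ 2 ∈ A.nonunits := by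
    aesop (add safe apply nu_mul_left, safe apply nu_sq, safe apply nu_cube,
      safe apply nu_four)
  have h1 := one_sub_ne_zero hε
  have h1A := inv_one_sub_mem hε
  -- for the congruence we keep the shape of `ε` and `σ₀` in two auxiliary facts
  have hmem : ∀ r : F, r ∈ A →
      W.b₂ * w + W.b₄ * (u + w) * w + W.b₆ * u * w ^ 2 +
        (2 * r + 2) * (W.b₄ * u * w + W.b₆ * (u + w) * u * w + W.b₈ * u ^ 2 * w ^ 2) ∈
          A.nonunits := by
    intro r hr
    clear key1 key2 hprod hsum hab ha hb ha0 hb0 hau hbw hε hσ₀ hπ₀ h1 h1A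
    aesop (add safe apply nu_mul_left, safe apply nu_sq, safe apply nu_cube,
      safe apply nu_four)
  have hid : a * (2 * (u + w) + W.b₂ * u * w + W.b₄ * (u + w) * u * w + W.b₆ * u ^ 2 * w ^ 2) =
        2 * (1 + a * w) + (W.b₂ * w + W.b₄ * (u + w) * w + W.b₆ * u * w ^ 2) := by
    linear_combination (2 + W.b₂ * w + W.b₄ * (u + w) * w + W.b₆ * u * w ^ 2) * hau
  generalize W.b₄ * u * w + W.b₆ * (u + w) * u * w + W.b₈ * u ^ 2 * w ^ 2 = ε
    at hε h1 h1A key1 hmem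
  generalize 2 * (u + w) + W.b₂ * u * w + W.b₄ * (u + w) * u * w + W.b₆ * u ^ 2 * w ^ 2 = σ₀
    at hσ₀ key2 hid
  have hdc : d * c ≠ 0 := by
    intro h
    rw [h, zero_mul] at key1
    exact h1 key1.symm
  have hd0 : d ≠ 0 := left_ne_zero_of_mul hdc
  have hc0 : c ≠ 0 := right_ne_zero_of_mul hdc
  have hπ : d⁻¹ * c⁻¹ = (u - w) ^ 2 * (1 - ε)⁻¹ := by
    field_simp
    linear_combination -key1
  have hσ : d⁻¹ + c⁻¹ = σ₀ * (1 - ε)⁻¹ := by
    field_simp
    linear_combination (d * c) * key2 - (d + c) * key1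
  have hπm : d⁻¹ * c⁻¹ ∈ A.nonunits := hπ ▸ nu_mul_right hπ₀ h1A
  have hσm : d⁻¹ + c⁻¹ ∈ A.nonunits := hσ ▸ nu_mul_right hσ₀ h1A
  have hd : d ∉ A := by
    intro hd
    have : d⁻¹ = (d⁻¹ + c⁻¹) - (d⁻¹ * c⁻¹) * d := by field_simp; ring
    exact not_mem_of_inv_nu hd0 (this ▸ sub_mem hσm (nu_mul_right hπm hd)) hd
  have hc : c ∉ A := by
    intro hc
    have : c⁻¹ = (d⁻¹ + c⁻¹) - (d⁻¹ * c⁻¹) * c := by field_simp; ring
    exact not_mem_of_inv_nu hc0 (this ▸ sub_mem hσm (nu_mul_right hπm hc)) hc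
  refine ⟨hd, hc, fun hr => ?_⟩
  have hr' : a / b = a * w := by
    obtain rfl : w = b⁻¹ := eq_inv_of_mul_eq_one_right hbw
    rw [div_eq_mul_inv]
  have hm := hmem (a / b) hr
  have : a / d + a / c - 2 * (a / b) - 2 =
      (W.b₂ * w + W.b₄ * (u + w) * w + W.b₆ * u * w ^ 2 + (2 * (a / b) + 2) * ε) *
        (1 - ε)⁻¹ := by
    have e1 : a / d + a / c = a * (d⁻¹ + c⁻¹) := by ring
    rw [e1, hσ, hr']
    field_simp
    linear_combination hid
  rw [this]
  exact nu_mul_right hm h1A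

/-! ### The kernel of reduction is a subgroup -/

/-- The kernel of reduction `E₁ = {O} ∪ {P | x(P) ∉ A}`. -/
def E1 (hW : IntegralCoeffs A W) : AddSubgroup W.Point where
  carrier := {P | P = 0 ∨ xc P ∉ A}
  zero_mem' := Or.inl rfl
  add_mem' := by
    rintro P Q (rfl | ha) (rfl | hb)
    · exact Or.inl (add_zero _)
    · rw [zero_add]; exact Or.inr hb
    · rw [add_zero]; exact Or.inr ha
    · have hP0 : P ≠ 0 := by rintro rfl; exact ha A.zero_mem
      have hQ0 : Q ≠ 0 := by rintro rfl; exact hb A.zero_mem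
      by_cases hab : xc P = xc Q
      · rcases (xc_eq_iff hP0 hQ0).mp hab with rfl | rfl
        · by_cases h2 : P + P = 0
          · exact Or.inl h2
          · exact Or.inr (dup_not_mem hW hP0 ha h2).1
        · exact Or.inl (neg_add_cancel Q)
      · exact Or.inr (addsub_not_mem hW hP0 hQ0 ha hb hab).1
  neg_mem' := by
    rintro P (rfl | ha)
    · exact Or.inl neg_zero
    · exact Or.inr (by rwa [xc_neg])

lemma mem_E1_iff (hW : IntegralCoeffs A W) {P : W.Point} :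
    P ∈ E1 hW ↔ P = 0 ∨ xc P ∉ A := Iff.rfl

omit [DecidableEq F] in
lemma ne_zero_of_xc_not_mem {P : W.Point} (ha : xc P ∉ A) : P ≠ 0 := by
  rintro rfl; exact ha A.zero_mem

lemma xc_not_mem_of_mem_E1 (hW : IntegralCoeffs A W) {P : W.Point} (hP : P ∈ E1 hW)
    (hP0 : P ≠ 0) : xc P ∉ A :=
  hP.resolve_left hP0

/-! ### No odd prime-to-residue-characteristic torsion in the kernel of reduction -/

/-- Core computation: if `x(P) ∉ A` and `P` has exact odd order `2m+1`, then `2m+1` is a nonunit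
of `A`.  (Here `x(P)/x(kP) ≡ k²` modulo the maximal ideal for `1 ≤ k ≤ m+1`.) -/
theorem natCast_mem_nonunits_of_order (hW : IntegralCoeffs A W) {m : ℕ} (hm : 1 ≤ m)
    {P : W.Point} (ha : xc P ∉ A) (hord : ∀ j : ℕ, 0 < j → j < 2 * m + 1 → j • P ≠ 0)
    (hP : (2 * m + 1) • P = 0) : ((2 * m + 1 : ℕ) : F) ∈ A.nonunits := by
  have hP0 : P ≠ 0 := ne_zero_of_xc_not_mem ha
  have hnat : ∀ n : ℕ, (n : F) ∈ A := fun n => natCast_mem A n
  have H : ∀ k : ℕ, 1 ≤ k → k ≤ m →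
      (xc (k • P) ∉ A ∧ xc P / xc (k • P) - (k : F) ^ 2 ∈ A.nonunits) ∧
      (xc ((k + 1) • P) ∉ A ∧ xc P / xc ((k + 1) • P) - ((k + 1 : ℕ) : F) ^ 2 ∈ A.nonunits) := by
    intro k hk
    induction k, hk using Nat.le_induction with
    | base =>
      intro _
      refine ⟨⟨by rwa [one_nsmul], ?_⟩, ?_⟩
      · rw [one_nsmul, div_self (ne_zero_of_not_mem ha)]
        simp only [Nat.cast_one, one_pow, sub_self]
        exact zero_mem _
      · have h2 : P + P ≠ 0 := by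
          have := hord 2 (by omega) (by omega)
          rwa [two_nsmul] at this
        have h := dup_not_mem hW hP0 ha h2
        have e : ((1 + 1 : ℕ) : F) ^ 2 = 4 := by norm_num
        rw [show (1 + 1) • P = P + P from two_nsmul P, e]
        exact h
    | succ k hk IH =>
      intro hkm
      obtain ⟨hk1, hk2⟩ := IH (by omega)
      refine ⟨hk2, ?_⟩
      have hQ0 : (k + 1) • P ≠ 0 := hord (k + 1) (by omega) (by omega)
      have hb := hk2.1
      have hab : xc P ≠ xc ((k + 1) • P) := by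
        intro hab
        rcases (xc_eq_iff hP0 hQ0).mp hab with h | h
        · apply hord k (by omega) (by omega)
          have : (k + 1) • P = k • P + P := succ_nsmul P k
          rw [this] at h
          exact add_eq_right.mp h.symm
        · apply hord (k + 2) (by omega) (by omega)
          have : (k + 2) • P = (k + 1) • P + P := succ_nsmul P (k + 1)
          rw [this, add_comm]
          exact eq_neg_iff_add_eq_zero.mp h
      obtain ⟨hd, -, hcong⟩ := addsub_not_mem hW hP0 hQ0 ha hb hab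
      have e1 : P + (k + 1) • P = (k + 1 + 1) • P := by
        rw [succ_nsmul P (k + 1), add_comm]
      have e2 : xc (P - (k + 1) • P) = xc (k • P) := by
        have : P - (k + 1) • P = -(k • P) := by
          rw [succ_nsmul P k]; abel
        rw [this, xc_neg]
      rw [e1] at hd hcong
      rw [e2] at hcong
      refine ⟨hd, ?_⟩
      have hrA : xc P / xc ((k + 1) • P) ∈ A := by
        have := A.add_mem _ _ (nu_mem hk2.2) (pow_mem (hnat (k + 1)) 2)
        rwa [sub_add_cancel] at this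
      have h3 := hcong hrA
      have key : xc P / xc ((k + 1 + 1) • P) - ((k + 1 + 1 : ℕ) : F) ^ 2 =
          (xc P / xc ((k + 1 + 1) • P) + xc P / xc (k • P) - 2 * (xc P / xc ((k + 1) • P)) - 2)
            - (xc P / xc (k • P) - (k : F) ^ 2)
            + 2 * (xc P / xc ((k + 1) • P) - ((k + 1 : ℕ) : F) ^ 2) := by
        push_cast; ring
      rw [key]
      exact add_mem (sub_mem h3 hk1.2) (nu_mul_left (by exact_mod_cast hnat 2) hk2.2)
  obtain ⟨hm1, hm2⟩ := H m hm le_rfl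
  have hneg : (m + 1) • P = -(m • P) := by
    have : (m + 1) • P + m • P = 0 := by
      rw [← add_nsmul]
      have : m + 1 + m = 2 * m + 1 := by ring
      rw [this, hP]
    exact eq_neg_of_add_eq_zero_left this
  rw [hneg, xc_neg] at hm2
  have key : ((2 * m + 1 : ℕ) : F) =
      (xc P / xc (m • P) - (m : F) ^ 2) - (xc P / xc (m • P) - ((m + 1 : ℕ) : F) ^ 2) := by
    push_cast; ring
  rw [key]
  exact sub_mem hm1.2 hm2.2

/-- A point of odd prime order `p`, with `p` a unit of `A`, has integral `x`-coordinate. -/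
theorem xc_mem_of_prime_nsmul_eq_zero (hW : IntegralCoeffs A W) {p : ℕ} (hp : p.Prime)
    (hp2 : p ≠ 2) (hpA : (p : F) ∉ A.nonunits) {P : W.Point} (hP0 : P ≠ 0)
    (hpP : p • P = 0) : xc P ∈ A := by
  by_contra ha
  obtain ⟨m, rfl⟩ : ∃ m, p = 2 * m + 1 := hp.odd_of_ne_two hp2
  have hm : 1 ≤ m := by
    rcases Nat.eq_zero_or_pos m with rfl | h
    · exact absurd hp Nat.not_prime_one
    · exact h
  have hord : ∀ j : ℕ, 0 < j → j < 2 * m + 1 → j • P ≠ 0 := by
    intro j hj0 hj hjP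
    have h1 : addOrderOf P ∣ 2 * m + 1 := addOrderOf_dvd_of_nsmul_eq_zero hpP
    have h2 : addOrderOf P ∣ j := addOrderOf_dvd_of_nsmul_eq_zero hjP
    rcases (Nat.dvd_prime hp).mp h1 with h | h
    · exact hP0 (AddMonoid.addOrderOf_eq_one_iff.mp h)
    · rw [h] at h2
      exact absurd (Nat.le_of_dvd hj0 h2) (by omega)
  exact hpA (natCast_mem_nonunits_of_order hW hm ha hord hpP)

/-- The kernel of reduction has no nonzero point killed by an odd prime `p` that is a unit of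
`A`. -/
theorem eq_zero_of_mem_E1_of_prime_nsmul_eq_zero (hW : IntegralCoeffs A W) {p : ℕ}
    (hp : p.Prime) (hp2 : p ≠ 2) (hpA : (p : F) ∉ A.nonunits) {P : W.Point} (hP : P ∈ E1 hW)
    (hpP : p • P = 0) : P = 0 := by
  by_contra hP0
  exact xc_not_mem_of_mem_E1 hW hP hP0 (xc_mem_of_prime_nsmul_eq_zero hW hp hp2 hpA hP0 hpP)

end Fermat.Agent.S05.H60
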