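import Fermat.Agent.S05.Defs
import Fermat.Agent.S05.H60.TorsionIntegral

/-!
# S05, module M3 in the shape of the shared interface

Torsion integrality and the kernel of reduction `E₁`, stated with `Fermat.Agent.S05.xOf`.
-/

set_option autoImplicit false

namespace Fermat.Agent.S05.H60

open WeierstrassCurve WeierstrassCurve.Affine

universe u

variable {L : Type u} [Field L]

lemma xc_eq_xOf {W : Affine L} (P : W.Point) : xc P = xOf P := by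
  cases P <;> rfl

/-- `P` lies in the kernel of reduction: `P = O` or `x(P) ∉ A`. -/
def InE1 {W : Affine L} (A : ValuationSubring L) (P : W.Point) : Prop :=
  P = 0 ∨ xOf P ∉ A

lemma inE1_iff_mem_E1 {W : Affine L} [DecidableEq L] {A : ValuationSubring L}
    (hW : IntegralCoeffs A W) {P : W.Point} : InE1 A P ↔ P ∈ E1 hW := by
  rw [mem_E1_iff, xc_eq_xOf]; rfl

lemma InE1.zero {W : Affine L} (A : ValuationSubring L) : InE1 A (0 : W.Point) := Or.inl rfl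

variable [DecidableEq L]

theorem InE1.add {W : Affine L} (A : ValuationSubring L) (ha₁ : W.a₁ ∈ A) (ha₂ : W.a₂ ∈ A)
    (ha₃ : W.a₃ ∈ A) (ha₄ : W.a₄ ∈ A) (ha₆ : W.a₆ ∈ A) {P Q : W.Point} (hP : InE1 A P)
    (hQ : InE1 A Q) : InE1 A (P + Q) := by
  have hW : IntegralCoeffs A W := ⟨ha₁, ha₂, ha₃, ha₄, ha₆⟩
  rw [inE1_iff_mem_E1 hW] at hP hQ ⊢
  exact add_mem hP hQ

omit [DecidableEq L] in
theorem InE1.neg {W : Affine L} (A : ValuationSubring L) {P : W.Point} (hP : InE1 A P) :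
    InE1 A (-P) := by
  rcases hP with rfl | h
  · exact Or.inl Point.neg_zero
  · right
    rwa [← xc_eq_xOf, xc_neg, xc_eq_xOf]

theorem InE1.sub {W : Affine L} (A : ValuationSubring L) (ha₁ : W.a₁ ∈ A) (ha₂ : W.a₂ ∈ A)
    (ha₃ : W.a₃ ∈ A) (ha₄ : W.a₄ ∈ A) (ha₆ : W.a₆ ∈ A) {P Q : W.Point} (hP : InE1 A P)
    (hQ : InE1 A Q) : InE1 A (P - Q) := by
  rw [sub_eq_add_neg]
  exact InE1.add A ha₁ ha₂ ha₃ ha₄ ha₆ hP (InE1.neg A hQ)

theorem InE1.nsmul {W : Affine L} (A : ValuationSubring L) (ha₁ : W.a₁ ∈ A) (ha₂ : W.a₂ ∈ A)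
    (ha₃ : W.a₃ ∈ A) (ha₄ : W.a₄ ∈ A) (ha₆ : W.a₆ ∈ A) {P : W.Point} (hP : InE1 A P) (n : ℕ) :
    InE1 A (n • P) := by
  have hW : IntegralCoeffs A W := ⟨ha₁, ha₂, ha₃, ha₄, ha₆⟩
  rw [inE1_iff_mem_E1 hW] at hP ⊢
  exact nsmul_mem hP n

/-- **Torsion integrality** (no hypothesis on `2` needed): a nonzero point killed by an odd prime
`p` which is a unit of `A` has `x`-coordinate in `A`. -/
theorem torsion_integral' {W : Affine L} (A : ValuationSubring L) (ha₁ : W.a₁ ∈ A)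
    (ha₂ : W.a₂ ∈ A) (ha₃ : W.a₃ ∈ A) (ha₄ : W.a₄ ∈ A) (ha₆ : W.a₆ ∈ A) {p : ℕ} (hp : p.Prime)
    (hp2 : p ≠ 2) (hpA : A.valuation (p : L) = 1) {P : W.Point} (hP : P ≠ 0) (hpP : p • P = 0) :
    xOf P ∈ A := by
  have hW : IntegralCoeffs A W := ⟨ha₁, ha₂, ha₃, ha₄, ha₆⟩
  have hpA' : (p : L) ∉ A.nonunits := by
    rw [A.mem_nonunits_iff, hpA]; exact lt_irrefl _
  rw [← xc_eq_xOf]
  exact xc_mem_of_prime_nsmul_eq_zero hW hp hp2 hpA' hP hpP

/-- **Torsion integrality**, exact shape of the shared S05 interface (the hypothesis `h2` is not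
used). -/
theorem torsion_integral {W : Affine L} (A : ValuationSubring L) (ha₁ : W.a₁ ∈ A)
    (ha₂ : W.a₂ ∈ A) (ha₃ : W.a₃ ∈ A) (ha₄ : W.a₄ ∈ A) (ha₆ : W.a₆ ∈ A)
    (_h2 : A.valuation (2 : L) = 1) {p : ℕ} (hp : p.Prime) (hp2 : p ≠ 2)
    (hpA : A.valuation (p : L) = 1) {P : W.Point} (hP : P ≠ 0) (hpP : p • P = 0) :
    xOf P ∈ A :=
  torsion_integral' A ha₁ ha₂ ha₃ ha₄ ha₆ hp hp2 hpA hP hpP

/-- The kernel of reduction contains no nonzero point killed by an odd prime `p` which is a unit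
of `A`. -/
theorem InE1.eq_zero_of_prime_nsmul {W : Affine L} (A : ValuationSubring L) (ha₁ : W.a₁ ∈ A)
    (ha₂ : W.a₂ ∈ A) (ha₃ : W.a₃ ∈ A) (ha₄ : W.a₄ ∈ A) (ha₆ : W.a₆ ∈ A) {p : ℕ} (hp : p.Prime)
    (hp2 : p ≠ 2) (hpA : A.valuation (p : L) = 1) {P : W.Point} (hP : InE1 A P)
    (hpP : p • P = 0) : P = 0 := by
  by_contra hP0
  exact (hP.resolve_left hP0) (torsion_integral' A ha₁ ha₂ ha₃ ha₄ ha₆ hp hp2 hpA hP0 hpP)

end Fermat.Agent.S05.H60
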