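import Mathlib.AlgebraicGeometry.EllipticCurve.Affine.Point

/-!
# x-coordinate identities for the affine group law (S05, module M1)

For affine nonsingular points `P = (x₁, y₁)`, `Q = (x₂, y₂)` with `x₁ ≠ x₂` on a Weierstrass
curve over a field:

* `x(P+Q) * x(P-Q) * (x₁-x₂)^2 = (x₁x₂)^2 - b₄ (x₁x₂) - b₆ (x₁+x₂) - b₈`
* `(x(P+Q) + x(P-Q)) * (x₁-x₂)^2 = 2 (x₁+x₂)(x₁x₂) + b₂ (x₁x₂) + b₄ (x₁+x₂) + b₆`

and the duplication formula
`x(2P) * (4x³ + b₂x² + 2b₄x + b₆) = x⁴ - b₄x² - 2b₆x - b₈`.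
-/

set_option autoImplicit false

namespace Fermat.Agent.S05.H60

open WeierstrassCurve WeierstrassCurve.Affine

variable {F : Type*} [Field F] {W : Affine F}

/-- The `x`-coordinate of an affine point (junk value `0` at the point at infinity). -/
def xc : W.Point → F
  | .zero => 0
  | .some x _ _ => x

@[simp] lemma xc_zero : xc (0 : W.Point) = 0 := rfl

@[simp] lemma xc_some {x y : F} (h : W.Nonsingular x y) : xc (Point.some x y h) = x := rfl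

@[simp] lemma xc_neg (P : W.Point) : xc (-P) = xc P := by
  cases P <;> rfl

/-- The two-torsion polynomial `4x³ + b₂x² + 2b₄x + b₆ = (2y + a₁x + a₃)²`. -/
def twoTorsionPoly (W : Affine F) (x : F) : F :=
  4 * x ^ 3 + W.b₂ * x ^ 2 + 2 * W.b₄ * x + W.b₆

/-- The numerator of the duplication formula. -/
def dupNum (W : Affine F) (x : F) : F :=
  x ^ 4 - W.b₄ * x ^ 2 - 2 * W.b₆ * x - W.b₈

lemma equation_iff' {x y : F} (h : W.Equation x y) :
    y ^ 2 + W.a₁ * x * y + W.a₃ * y = x ^ 3 + W.a₂ * x ^ 2 + W.a₄ * x + W.a₆ :=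
  (W.equation_iff x y).mp h

lemma sq_eq_twoTorsionPoly {x y : F} (h : W.Equation x y) :
    (y - W.negY x y) ^ 2 = twoTorsionPoly W x := by
  have h' := equation_iff' h
  simp only [negY, twoTorsionPoly, WeierstrassCurve.b₂, WeierstrassCurve.b₄, WeierstrassCurve.b₆]
  linear_combination 4 * h'

variable [DecidableEq F]

section raw

variable {x₁ y₁ x₂ y₂ : F}

/-- Raw product identity for the secant construction. -/
lemma addX_mul_addX_neg (h₁ : W.Equation x₁ y₁) (h₂ : W.Equation x₂ y₂) (hx : x₁ ≠ x₂) :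
    W.addX x₁ x₂ (W.slope x₁ x₂ y₁ y₂) * W.addX x₁ x₂ (W.slope x₁ x₂ y₁ (W.negY x₂ y₂)) *
        (x₁ - x₂) ^ 2 =
      (x₁ * x₂) ^ 2 - W.b₄ * (x₁ * x₂) - W.b₆ * (x₁ + x₂) - W.b₈ := by
  have h₁' := equation_iff' h₁
  have h₂' := equation_iff' h₂
  have hd : x₁ - x₂ ≠ 0 := sub_ne_zero.mpr hx
  rw [slope_of_X_ne hx, slope_of_X_ne hx]
  simp only [addX, negY, WeierstrassCurve.b₄, WeierstrassCurve.b₆, WeierstrassCurve.b₈]
  field_simp
  grind

/-- Raw sum identity for the secant construction. -/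
lemma addX_add_addX_neg (h₁ : W.Equation x₁ y₁) (h₂ : W.Equation x₂ y₂) (hx : x₁ ≠ x₂) :
    (W.addX x₁ x₂ (W.slope x₁ x₂ y₁ y₂) + W.addX x₁ x₂ (W.slope x₁ x₂ y₁ (W.negY x₂ y₂))) *
        (x₁ - x₂) ^ 2 =
      2 * (x₁ + x₂) * (x₁ * x₂) + W.b₂ * (x₁ * x₂) + W.b₄ * (x₁ + x₂) + W.b₆ := by
  have h₁' := equation_iff' h₁
  have h₂' := equation_iff' h₂
  have hd : x₁ - x₂ ≠ 0 := sub_ne_zero.mpr hx
  rw [slope_of_X_ne hx, slope_of_X_ne hx]
  simp only [addX, negY, WeierstrassCurve.b₂, WeierstrassCurve.b₄, WeierstrassCurve.b₆]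
  field_simp
  linear_combination 2 * h₁' + 2 * h₂'

/-- Raw duplication identity for the tangent construction. -/
lemma addX_self_mul (h₁ : W.Equation x₁ y₁) (hy : y₁ ≠ W.negY x₁ y₁) :
    W.addX x₁ x₁ (W.slope x₁ x₁ y₁ y₁) * twoTorsionPoly W x₁ = dupNum W x₁ := by
  have h₁' := equation_iff' h₁
  have hd : y₁ - W.negY x₁ y₁ ≠ 0 := sub_ne_zero.mpr hy
  rw [← sq_eq_twoTorsionPoly h₁, slope_of_Y_ne rfl hy]
  generalize hη : y₁ - W.negY x₁ y₁ = η at hd ⊢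
  simp only [negY] at hη
  simp only [addX, dupNum, WeierstrassCurve.b₄, WeierstrassCurve.b₆, WeierstrassCurve.b₈]
  field_simp
  grind

end raw

section points

/-- For affine points with distinct `x`-coordinates, the sum is affine. -/
lemma add_ne_zero_of_xc_ne {P Q : W.Point} (hP : P ≠ 0) (hQ : Q ≠ 0) (hx : xc P ≠ xc Q) :
    P + Q ≠ 0 := by
  rcases P with _ | ⟨x₁, y₁, h₁⟩
  · exact absurd rfl hP
  rcases Q with _ | ⟨x₂, y₂, h₂⟩
  · exact absurd rfl hQ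
  simp only [xc] at hx
  rw [Point.add_of_X_ne hx]
  exact Point.some_ne_zero _

lemma sub_ne_zero_of_xc_ne {P Q : W.Point} (hP : P ≠ 0) (hQ : Q ≠ 0) (hx : xc P ≠ xc Q) :
    P - Q ≠ 0 := by
  rw [sub_eq_add_neg]
  exact add_ne_zero_of_xc_ne hP (neg_ne_zero.mpr hQ) (by rwa [xc_neg])

omit [DecidableEq F] in
lemma xc_eq_iff {P Q : W.Point} (hP : P ≠ 0) (hQ : Q ≠ 0) :
    xc P = xc Q ↔ P = Q ∨ P = -Q := by
  rcases P with _ | ⟨x₁, y₁, h₁⟩
  · exact absurd rfl hP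
  rcases Q with _ | ⟨x₂, y₂, h₂⟩
  · exact absurd rfl hQ
  exact Point.X_eq_iff

/-- **Product formula**: `x(P+Q) x(P-Q) (x₁-x₂)² = s² - b₄ s - b₆ t - b₈`. -/
theorem xc_add_mul_xc_sub {P Q : W.Point} (hP : P ≠ 0) (hQ : Q ≠ 0) (hx : xc P ≠ xc Q) :
    xc (P + Q) * xc (P - Q) * (xc P - xc Q) ^ 2 =
      (xc P * xc Q) ^ 2 - W.b₄ * (xc P * xc Q) - W.b₆ * (xc P + xc Q) - W.b₈ := by
  rcases P with _ | ⟨x₁, y₁, h₁⟩
  · exact absurd rfl hP
  rcases Q with _ | ⟨x₂, y₂, h₂⟩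
  · exact absurd rfl hQ
  simp only [xc] at hx
  rw [sub_eq_add_neg, Point.neg_some, Point.add_of_X_ne hx, Point.add_of_X_ne hx]
  exact addX_mul_addX_neg h₁.1 h₂.1 hx

/-- **Sum formula**: `(x(P+Q) + x(P-Q)) (x₁-x₂)² = 2ts + b₂ s + b₄ t + b₆`. -/
theorem xc_add_add_xc_sub {P Q : W.Point} (hP : P ≠ 0) (hQ : Q ≠ 0) (hx : xc P ≠ xc Q) :
    (xc (P + Q) + xc (P - Q)) * (xc P - xc Q) ^ 2 =
      2 * (xc P + xc Q) * (xc P * xc Q) + W.b₂ * (xc P * xc Q) + W.b₄ * (xc P + xc Q) + W.b₆ := by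
  rcases P with _ | ⟨x₁, y₁, h₁⟩
  · exact absurd rfl hP
  rcases Q with _ | ⟨x₂, y₂, h₂⟩
  · exact absurd rfl hQ
  simp only [xc] at hx
  rw [sub_eq_add_neg, Point.neg_some, Point.add_of_X_ne hx, Point.add_of_X_ne hx]
  exact addX_add_addX_neg h₁.1 h₂.1 hx

/-- `P + P = 0` iff the two-torsion polynomial vanishes at `x(P)`. -/
theorem add_self_eq_zero_iff {P : W.Point} (hP : P ≠ 0) :
    P + P = 0 ↔ twoTorsionPoly W (xc P) = 0 := by
  rcases P with _ | ⟨x₁, y₁, h₁⟩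
  · exact absurd rfl hP
  simp only [xc]
  rw [← sq_eq_twoTorsionPoly h₁.1, sq_eq_zero_iff, sub_eq_zero]
  constructor
  · intro h
    by_contra hy
    rw [Point.add_self_of_Y_ne hy] at h
    exact Point.some_ne_zero _ h
  · intro hy
    exact Point.add_self_of_Y_eq hy

/-- **Duplication formula**: `x(2P) (4x³ + b₂x² + 2b₄x + b₆) = x⁴ - b₄x² - 2b₆x - b₈`. -/
theorem xc_add_self {P : W.Point} (hP : P ≠ 0) (h2 : P + P ≠ 0) :
    xc (P + P) * twoTorsionPoly W (xc P) = dupNum W (xc P) := by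
  rcases P with _ | ⟨x₁, y₁, h₁⟩
  · exact absurd rfl hP
  have hy : y₁ ≠ W.negY x₁ y₁ := fun hy => h2 (Point.add_self_of_Y_eq hy)
  rw [Point.add_self_of_Y_ne hy]
  exact addX_self_mul h₁.1 hy

end points

end Fermat.Agent.S05.H60
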